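import Fermat.Agent.GD.Local.Bridge

/-!
# Only finitely many primes are bad for an algebraic number or for a number field
-/

set_option autoImplicit false

noncomputable section

namespace Fermat.Agent.GD

open Fermat.Agent.Galois
open IsLocalRing Polynomial

local notation "ℚb" => AlgebraicClosure ℚ

theorem valuation_le_one_of_isIntegral (A : ValuationSubring ℚb) {x : ℚb} (hx : IsIntegral ℤ x) :
    A.valuation x ≤ 1 :=
  (A.valuation_le_one_iff x).mpr (integralClosure_le A ⟨x, hx⟩)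

theorem valuation_intCast_eq_one {A : ValuationSubring ℚb} {q : ℕ} (hq : q.Prime)
    (hA : A.LiesOverPrime q) {n : ℤ} (hn : ¬ (q : ℤ) ∣ n) : A.valuation (n : ℚb) = 1 := by
  refine le_antisymm ((A.valuation_le_one_iff _).mpr (intCast_mem A n)) (not_lt.mp fun h => hn ?_)
  have := (intCast_mem_placeCenter hq hA n).mp (by
    rw [mem_placeCenter_iff, ValuationSubring.mem_nonunits_iff]
    simpa using h)
  exact this

/-- Away from finitely many primes all conjugates of a nonzero algebraic number are units. -/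
theorem exists_bad_primes {x : ℚb} (hx : x ≠ 0) : ∃ S : Finset Nat.Primes, ∀ q ∉ S,
    ∀ A : ValuationSubring ℚb, A.LiesOverPrime (q : ℕ) → ∀ g : GQ, A.valuation (g x) = 1 := by
  haveI : Algebra.IsAlgebraic ℚ ℚb := isAlgebraic_qbar
  have halg : ∀ y : ℚb, ∃ a : ℤ, a ≠ 0 ∧ IsIntegral ℤ ((a : ℚb) * y) := fun y => by
    obtain ⟨a, ha, hint⟩ := ((IsFractionRing.isAlgebraic_iff ℤ ℚ ℚb).mpr
      (Algebra.IsAlgebraic.isAlgebraic y)).exists_integral_multiple
    exact ⟨a, ha, by rwa [zsmul_eq_mul] at hint⟩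
  obtain ⟨a, ha, hia⟩ := halg x
  obtain ⟨b, hb, hib⟩ := halg x⁻¹
  have hfin : {q : Nat.Primes | ((q : ℕ) : ℤ) ∣ a * b}.Finite :=
    ((Set.finite_le_nat (a * b).natAbs).preimage Subtype.val_injective.injOn).subset fun q hq =>
      Nat.le_of_dvd (Int.natAbs_pos.mpr (mul_ne_zero ha hb)) (Int.natCast_dvd.mp hq)
  refine ⟨hfin.toFinset, fun q hq A hA g => ?_⟩
  have hq' : ¬ ((q : ℕ) : ℤ) ∣ a * b := fun h => hq (hfin.mem_toFinset.mpr h)
  have key : ∀ (n : ℤ) (y : ℚb), ¬ ((q : ℕ) : ℤ) ∣ n → IsIntegral ℤ ((n : ℚb) * y) →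
      A.valuation (g y) ≤ 1 := fun n y hn hi => by
    have h1 := valuation_le_one_of_isIntegral A (hi.map (g.toRingEquiv.toRingHom.toIntAlgHom))
    have e : g.toRingEquiv.toRingHom.toIntAlgHom ((n : ℚb) * y) = (n : ℚb) * g y := by
      show g ((n : ℚb) * y) = _
      rw [map_mul, map_intCast]
    rwa [e, map_mul, valuation_intCast_eq_one q.2 hA hn, one_mul] at h1
  have h1 := key a x (fun h => hq' (h.mul_right _)) hia
  have h2 := key b x⁻¹ (fun h => hq' (h.mul_left _)) hib
  rw [map_inv₀, map_inv₀, inv_le_one₀ (lt_of_le_of_ne zero_le'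
    (Ne.symm ((_root_.map_ne_zero _).mpr ((_root_.map_ne_zero g).mpr hx))))] at h2
  exact le_antisymm h1 h2

/-- A number is a unit at almost all chosen places. -/
theorem diag_finite (y : ℚbˣ) :
    {q : Nat.Primes | ∃ g, diag y (some q) g ∉ (placeAt q).unitGroup}.Finite := by
  obtain ⟨S, hS⟩ := exists_bad_primes y.ne_zero
  refine S.finite_toSet.subset fun q ⟨g, hg⟩ => by_contra fun hq => hg ?_
  rw [ValuationSubring.mem_unitGroup_iff]
  refine hS q hq _ ?_ g
  exact placeAt_liesOverPrime q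

/-- A number field is unramified outside some finite set of primes. -/
theorem exists_unramified_set (F : IntermediateField ℚ ℚb) [FiniteDimensional ℚ F] :
    ∃ S : Finset Nat.Primes, F.IsUnramifiedOutside S := by
  classical
  haveI : Algebra.IsAlgebraic ℚ ℚb := isAlgebraic_qbar
  let bas := Module.finBasis ℚ F
  have hint : ∀ i, ∃ a : ℤ, a ≠ 0 ∧ IsIntegral ℤ ((a : ℚb) * (bas i : ℚb)) := fun i => by
    obtain ⟨a, ha, hint⟩ := ((IsFractionRing.isAlgebraic_iff ℤ ℚ ℚb).mpr
      (Algebra.IsAlgebraic.isAlgebraic (bas i : ℚb))).exists_integral_multiple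
    exact ⟨a, ha, by rwa [zsmul_eq_mul] at hint⟩
  choose a ha hi using hint
  let z : _ → ℚb := fun i => (a i : ℚb) * (bas i : ℚb)
  let R : Set ℚb := ⋃ i, (fun r => r - z i) '' ((minpoly ℚ (z i)).aroots ℚb).toFinset
  have hR : R.Finite := Set.finite_iUnion fun i => Set.Finite.image _ (Finset.finite_toSet _)
  choose S hS using fun d : {d : hR.toFinset // (d : ℚb) ≠ 0} => exists_bad_primes d.2
  refine ⟨Finset.univ.biUnion S, inferInstance, fun q hq A hA σ hσ => ?_⟩
  obtain ⟨s, hs, rfl⟩ := hσ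
  have hfix : ∀ i, (s : GQ) (z i) = z i := fun i => by
    by_contra hne
    have hd : (s : GQ) (z i) - z i ∈ R := Set.mem_iUnion.mpr ⟨i, _, Finset.mem_coe.mpr
      (Multiset.mem_toFinset.mpr ((mem_aroots).mpr ⟨minpoly.ne_zero
        (Algebra.IsAlgebraic.isAlgebraic (z i)).isIntegral, by
          rw [aeval_algEquiv, AlgHom.comp_apply, minpoly.aeval, map_zero]⟩)), rfl⟩
    have hd0 : (s : GQ) (z i) - z i ≠ 0 := sub_ne_zero.mpr hne
    have h1 := hS ⟨⟨_, hR.mem_toFinset.mpr hd⟩, hd0⟩ q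
      (fun h => hq (Finset.mem_biUnion.mpr ⟨_, Finset.mem_univ _, h⟩)) A hA 1
    rw [AlgEquiv.one_apply] at h1
    let w : A := ⟨z i, integralClosure_le A ⟨z i, hi i⟩⟩
    have h2 : residue A (s • w) = residue A w := by
      rw [ResidueField.residue_smul]
      exact RingEquiv.congr_fun (MonoidHom.mem_ker.mp hs) (residue A w)
    rw [← sub_eq_zero, ← map_sub, residue_eq_zero_iff, mem_maximalIdeal, mem_nonunits_iff] at h2
    exact h2 ((A.valuation_eq_one_iff _).mpr h1)
  have hb : ∀ i, (s : GQ) (bas i : ℚb) = (bas i : ℚb) := fun i => by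
    have := hfix i
    simp only [z, map_mul, map_intCast] at this
    exact mul_left_cancel₀ (Int.cast_ne_zero.mpr (ha i)) this
  rintro ⟨y, hy⟩
  show (s : GQ) y = y
  have hy' : y = ∑ i, bas.repr ⟨y, hy⟩ i • (bas i : ℚb) := by
    have := congrArg F.val (bas.sum_repr ⟨y, hy⟩)
    rw [map_sum] at this
    exact this.symm.trans (Finset.sum_congr rfl fun i _ => rfl)
  rw [hy', map_sum]
  exact Finset.sum_congr rfl fun i _ => by rw [Algebra.smul_def, map_mul, AlgEquiv.commutes, hb i]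

end Fermat.Agent.GD
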