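import Fermat.Agent.GD.Global.Basic.Components
import Fermat.Agent.GD.Global.Basic.Support

/-!
# First and second cohomology of the ideles; fixed lifts of fixed classes
-/

set_option autoImplicit false
set_option linter.style.haveILetI false

noncomputable section

namespace Fermat.Agent.GD

open Fermat.Agent.Galois (GQ)

local notation "ℚb" => AlgebraicClosure ℚ

variable {T : Finset Nat.Primes}

theorem normal_le_inter {H : Subgroup GQ} {N N' : Subgroup GQ} (hN : (LT T).IsLevel N)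
    (hN' : (LT T).IsLevel N') (hle : N ≤ H) : (LT T).IsLevel (N' ⊓ N) ∧ N' ⊓ N ≤ H :=
  ⟨(LT T).inf _ _ hN' hN, inf_le_right.trans hle⟩

theorem finite_bad_of_const {H N : Subgroup GQ} (hN : (LT T).IsLevel N) {n : Type} [Finite n]
    (f : (n → H) → idele T)
    (hf : ∀ a s : n → H, (∀ i, (s i : GQ) ∈ N) → f (a * s) = f a) :
    {q : Nat.Primes | ∃ a g, (f a).1 (some q) g ∉ (placeAt q).unitGroup}.Finite := by
  haveI := (LT T).finiteIndex N hN
  haveI : N.FiniteIndex := (LT T).finiteIndex N hN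
  haveI : Finite (H ⧸ N.subgroupOf H) := Subgroup.finite_quotient_of_finiteIndex
  refine (Set.finite_iUnion fun c : n → H ⧸ N.subgroupOf H =>
    (f (fun i => (c i).out)).2.2.2).subset fun q hq => ?_
  obtain ⟨a, g, hag⟩ := hq
  refine Set.mem_iUnion.mpr ⟨fun i => QuotientGroup.mk (a i), g, ?_⟩
  have : f a = f (fun i => (QuotientGroup.mk (a i) : H ⧸ N.subgroupOf H).out) := by
    rw [← hf (fun i => (QuotientGroup.mk (a i) : H ⧸ N.subgroupOf H).out)
      (fun i => ((QuotientGroup.mk (a i) : H ⧸ N.subgroupOf H).out)⁻¹ * a i)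
      (fun i => Subgroup.mem_subgroupOf.mp (QuotientGroup.eq.mp (QuotientGroup.out_eq' _)))]
    exact congrArg f (funext fun i => (mul_inv_cancel_left _ _).symm)
  rwa [← this]

/-- A one-cocycle of ideles is a coboundary, keeping track of supports. -/
theorem exists_coc1_idele {H N : Subgroup GQ} (hN : (LT T).IsLevel N) (hle : N ≤ H)
    (f : H → idele T) (hcoc : ∀ (x y : H) v g,
      (f (x * y)).1 v g = (f x).1 v g * (f y).1 v (g * (x : GQ)))
    (hc : ∀ x s : H, (s : GQ) ∈ N → f (x * s) = f x) :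
    ∃ m : idele T, (∀ v g, ∀ s ∈ N, m.1 v (g * s) = m.1 v g) ∧
      (∀ (x : H) v g, (f x).1 v g = m.1 v (g * (x : GQ)) / m.1 v g) ∧
      (∀ v, (∀ x g, (f x).1 v g = 1) → ∀ g, m.1 v g = 1) ∧
      ∀ q ∉ T, (∀ x g, (f x).1 (some q) g ∈ (placeAt q).unitGroup) →
        ∀ g, m.1 (some q) g ∈ (placeAt q).unitGroup := by
  haveI := normal_of_level hN
  have h1 : ∀ v g, (f 1).1 v g = 1 := fun v g => by
    have := hcoc 1 1 v g
    rw [one_mul, Subgroup.coe_one, mul_one] at this
    exact left_eq_mul.mp this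
  have hfix : ∀ (x : H) v g, ∀ s ∈ N, (f x).1 v (g * s) = (f x).1 v g := fun x v g s hs => by
    have hs1 : (f ⟨s, hle hs⟩).1 v g = 1 := by
      rw [show (⟨s, hle hs⟩ : H) = 1 * ⟨s, hle hs⟩ from (one_mul _).symm, hc 1 ⟨s, hle hs⟩ hs, h1]
    have h2 : f (⟨s, hle hs⟩ * x) = f x := by
      rw [show (⟨s, hle hs⟩ : H) * x = x * (x⁻¹ * ⟨s, hle hs⟩ * x) by group]
      exact hc _ _ (by simpa using! Subgroup.Normal.conj_mem ‹N.Normal› _ hs (x : GQ)⁻¹)
    have h3 := hcoc ⟨s, hle hs⟩ x v g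
    rw [h2, hs1, one_mul] at h3
    exact h3.symm
  choose B hB hBe hB0 hBU using fun v => exists_comp1 hN hle v
    (fun x g => Additive.ofMul ((f x).1 v g)) (fun x => isComp_idele (f x) (hfix x) v)
    (fun x y g => congrArg Additive.ofMul (hcoc x y v g))
    (fun x s hs => funext fun g => by rw [hc x s hs])
  have hbad := finite_bad_of_const hN (n := Unit) (fun a => f (a ()))
    fun a s hs => hc (a ()) (s ()) (hs ())
  have hU : ∀ q ∉ T, (∀ x g, (f x).1 (some q) g ∈ (placeAt q).unitGroup) →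
      ∀ g, B (some q) g ∈ unitA q := fun q hq h => hBU (some q) q rfl hq h
  refine ⟨ideleOfComp hN B hB ((T.finite_toSet.union hbad).subset fun q hq => ?_),
    fun v g s hs => congrArg Additive.toMul ((hB v).inv g s hs),
    fun x v g => congrArg Additive.toMul (hBe v x g),
    fun v h g => congrArg Additive.toMul (hB0 v (fun x g => congrArg Additive.ofMul (h x g)) g),
    hU⟩
  by_contra hc'
  simp only [Set.mem_union, Set.mem_setOf_eq, Finset.mem_coe, not_or, not_exists, not_not] at hc'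
  obtain ⟨g, hg⟩ := hq
  exact hg (hU q hc'.1 (fun x g => hc'.2 (fun _ => x) g) g)

theorem idele_h1_eq (H : Subgroup GQ) (hH : (LT T).IsOpen H) :
    ∀ f ∈ ((LT T).sub H).Z1 (Additive (idele T)), f ∈ ((LT T).sub H).B1 (Additive (idele T)) := by
  rintro f ⟨⟨_, ⟨N', hN', rfl⟩, hc⟩, hcoc⟩
  obtain ⟨N, hN, hle⟩ := hH
  obtain ⟨hlev, hle'⟩ := normal_le_inter (H := H) hN hN' hle
  obtain ⟨m, -, hm, -, -⟩ := exists_coc1_idele (H := H) hlev hle' (fun x => (f x).toMul)
    (fun x y v g => congrArg (fun w : Additive (idele T) => w.toMul.1 v g) (hcoc x y))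
    (fun x s hs => congrArg Additive.toMul (hc x s (Subgroup.mem_subgroupOf.mpr hs.1)))
  refine ⟨Additive.ofMul m, funext fun x => Additive.toMul.injective (Subtype.ext (funext fun v =>
    funext fun g => ?_))⟩
  exact (hm x v g).symm

/-- A two-cocycle of ideles which is locally a coboundary is a coboundary. -/
theorem idele_h2_loc_eq (H : Subgroup GQ) (hH : (LT T).IsOpen H)
    (z : ((LT T).sub H).Z2 (Additive (idele T)))
    (hz : ∀ (v : Place) (g : GQ),
      ∃ b : locSub (decomp v) H g → Additive ℚbˣ,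
        (∃ M, (LD v).IsLevel M ∧ ∀ d s : locSub (decomp v) H g,
          (s : decomp v) ∈ M → b (d * s) = b d) ∧
        ∀ d e : locSub (decomp v) H g,
          Additive.ofMul ((z.1 (cj d, cj e)).toMul.1 v g) =
            (d : decomp v) • b e - b (d * e) + b d) :
    ((LT T).sub H).IsB2 (Additive (idele T)) z.1 := by
  obtain ⟨⟨_, ⟨N', hN', rfl⟩, hc'⟩, hcoc'⟩ := z.2
  obtain ⟨N₁, hN₁, hle₁⟩ := hH
  obtain ⟨hN, hle⟩ := normal_le_inter (H := H) hN₁ hN' hle₁
  set N : Subgroup GQ := N' ⊓ N₁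
  haveI := normal_of_level hN
  let Z : H → H → idele T := fun x y => (z.1 (x, y)).toMul
  have hc : ∀ x y s t : H, (s : GQ) ∈ N → (t : GQ) ∈ N → Z (x * s) (y * t) = Z x y :=
    fun x y s t hs ht => congrArg Additive.toMul
      (hc' x y s (Subgroup.mem_subgroupOf.mpr hs.1) t (Subgroup.mem_subgroupOf.mpr ht.1))
  have hcoc : ∀ (x y w : H) v g,
      (Z y w).1 v (g * (x : GQ)) * (Z x (y * w)).1 v g = (Z (x * y) w).1 v g * (Z x y).1 v g :=
    fun x y w v g => congrArg (fun u : Additive (idele T) => u.toMul.1 v g) (hcoc' x y w)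
  have hfix : ∀ (y w : H) v g, ∀ s ∈ N, (Z y w).1 v (g * s) = (Z y w).1 v g := fun y w v g s hs => by
    have hone : ∀ j, Z 1 j = Z 1 1 := fun j => Subtype.ext (funext fun v => funext fun g => by
      have := hcoc 1 1 j v g
      rw [Subgroup.coe_one, mul_one, one_mul, one_mul] at this
      exact mul_left_cancel this)
    have e1 : ∀ j, Z ⟨s, hle hs⟩ j = Z 1 1 := fun j => by
      have := hc 1 j ⟨s, hle hs⟩ 1 hs (by rw [Subgroup.coe_one]; exact N.one_mem)
      rw [one_mul, mul_one] at this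
      rw [this, hone]
    have e2 : Z (⟨s, hle hs⟩ * y) w = Z y w := by
      have := hc y w (y⁻¹ * ⟨s, hle hs⟩ * y) 1
        (by simpa using! Subgroup.Normal.conj_mem ‹N.Normal› _ hs (y : GQ)⁻¹)
        (by rw [Subgroup.coe_one]; exact N.one_mem)
      rwa [show y * (y⁻¹ * ⟨s, hle hs⟩ * y) = ⟨s, hle hs⟩ * y by group, mul_one] at this
    have := hcoc ⟨s, hle hs⟩ y w v g
    rw [e1, e1, e2] at this
    exact mul_right_cancel this
  choose B hB hBN hBe hBU using fun v => exists_comp2 (H := H) hN hle v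
    (fun x y g => Additive.ofMul ((Z x y).1 v g)) (fun x y => isComp_idele _ (hfix x y) v)
    (fun x y w g => congrArg Additive.ofMul (hcoc x y w v g))
    (fun x y s t hs ht => funext fun g => by rw [hc x y s t hs ht])
    (fun r => by
      obtain ⟨b, ⟨M, hM, hbM⟩, hb⟩ := hz v r
      exact ⟨M, hM, b, hbM, hb⟩)
  have hbad := finite_bad_of_const hN (n := Fin 2) (fun a => Z (a 0) (a 1))
    fun a s hs => hc (a 0) (a 1) (s 0) (s 1) (hs 0) (hs 1)
  let b : H → idele T := fun x => ideleOfComp hN (fun v => B v x) (fun v => hB v x)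
    ((T.finite_toSet.union hbad).subset fun q hq => by
      by_contra hc''
      simp only [Set.mem_union, Set.mem_setOf_eq, Finset.mem_coe, not_or, not_exists, not_not] at hc''
      obtain ⟨g, hg⟩ := hq
      exact hg (hBU (some q) q rfl hc''.1 (fun x y g => hc''.2 ![x, y] g) x g))
  refine ⟨fun x => Additive.ofMul (b x), ⟨_, ⟨N, hN, rfl⟩, fun x s hs => congrArg Additive.ofMul
    (Subtype.ext (funext fun v => congrArg (fun F => fun g => Additive.toMul (F g))
      (hBN v x s (Subgroup.mem_subgroupOf.mp hs))))⟩, funext fun y => ?_⟩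
  refine Additive.toMul.injective (Subtype.ext (funext fun v => funext fun g => ?_))
  exact (congrArg Additive.toMul (hBe v y.1 y.2 g)).symm

/-- Hilbert 90 at a level unramified outside `T`. -/
theorem exists_smul_div_eq_global {H N : Subgroup GQ} (hN : (LT T).IsLevel N) (hle : N ≤ H)
    (f : H → ℚbˣ) (hf : ∀ g h : H, f (g * h) = f g * (g : GQ) • f h)
    (hfN : ∀ g : H, ∀ s : H, (s : GQ) ∈ N → f (g * s) = f g) :
    ∃ u : ℚbˣ, (∀ s ∈ N, s • u = u) ∧ ∀ g : H, f g = (g : GQ) • u / u := by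
  classical
  haveI : N.FiniteIndex := (LT T).finiteIndex N hN
  haveI hnorm : N.Normal := normal_of_level hN
  obtain ⟨F, hF, rfl, -⟩ := hN
  set N := F.fixingSubgroup
  have hf1 : f 1 = 1 := by
    have h := hf 1 1
    rw [mul_one, Subgroup.coe_one, one_smul] at h
    exact left_eq_mul.mp h
  letI : Fintype (H ⧸ N.subgroupOf H) := Fintype.ofFinite _
  let χ : H ⧸ N.subgroupOf H → (F →* ℚb) := fun c =>
    (((c.out : H) : GQ).toRingEquiv.toRingHom.comp (algebraMap F ℚb)).toMonoidHom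
  have hχ : Function.Injective χ := by
    intro c c' hcc
    rw [← QuotientGroup.out_eq' c, ← QuotientGroup.out_eq' c', QuotientGroup.eq,
      Subgroup.mem_subgroupOf]
    intro x
    show ((c.out : H) : GQ).symm (((c'.out : H) : GQ) x) = x
    rw [AlgEquiv.symm_apply_eq]
    exact (DFunLike.congr_fun hcc x).symm
  have hli := (linearIndependent_monoidHom F ℚb).comp _ hχ
  obtain ⟨θ, hθ⟩ : ∃ θ : F, (∑ c, (f (c.out : H) : ℚb) * χ c θ) ≠ 0 := by
    by_contra hcon
    push Not at hcon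
    have h0 := Fintype.linearIndependent_iff.mp hli (fun c => (f (c.out : H) : ℚb))
      (funext fun θ => by simpa using hcon θ) (QuotientGroup.mk 1)
    exact (f _).ne_zero h0
  set b := ∑ c, (f (c.out : H) : ℚb) * χ c θ with hb
  have hθfix : ∀ s : H, (s : GQ) ∈ N → (s : GQ) θ = θ := fun s hs => hs θ
  have hkey : ∀ g : H, (f g : ℚb) * (g : GQ) b = b := by
    intro g
    rw [hb, map_sum, Finset.mul_sum, ← (Equiv.sum_comp (MulAction.toPerm g)
      fun c => (f (c.out : H) : ℚb) * χ c θ)]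
    refine Finset.sum_congr rfl fun c _ => ?_
    obtain ⟨k, hk⟩ : ∃ k : N.subgroupOf H, (g • c).out = g * c.out * k := by
      refine ⟨⟨(g * c.out)⁻¹ * (g • c).out, QuotientGroup.eq.mp ?_⟩, by group⟩
      rw [QuotientGroup.out_eq']
      conv_rhs => rw [← QuotientGroup.out_eq' c]
      rfl
    show _ = (f ((g • c).out : H) : ℚb) * (((g • c).out : H) : GQ) θ
    rw [hk, hfN _ _ (Subgroup.mem_subgroupOf.mp k.2), Subgroup.coe_mul, AlgEquiv.mul_apply,
      hθfix _ (Subgroup.mem_subgroupOf.mp k.2), Subgroup.coe_mul, AlgEquiv.mul_apply, map_mul, hf,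
      Units.val_mul]
    simp only [mul_assoc]
    rfl
  refine ⟨(Units.mk0 b hθ)⁻¹, fun s hs => ?_, fun g => ?_⟩
  · rw [smul_inv', inv_inj]
    refine Units.ext ?_
    have := hkey ⟨s, hle hs⟩
    rw [show f ⟨s, hle hs⟩ = 1 by rw [← one_mul (⟨s, hle hs⟩ : H), hfN 1 _ hs, hf1],
      Units.val_one, one_mul] at this
    exact this
  · rw [smul_inv', inv_div_inv, eq_div_iff_mul_eq']
    exact Units.ext (hkey g)

/-- A fixed class is the class of a fixed idele. -/
theorem exists_fixed_lift_eq (H : Subgroup GQ) (hH : (LT T).IsOpen H) (c : ClassT T)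
    (hc : ∀ h : (LT T).G, (h : GQ) ∈ H → h • c = c) :
    ∃ f : idele T, (∀ h : (LT T).G, (h : GQ) ∈ H → h • f = f) ∧ toClass T f = c := by
  obtain ⟨f₀, hf₀⟩ := mkClass_surjective T c.toMul
  obtain ⟨N', hN', hfN'⟩ := f₀.2.2.1
  obtain ⟨N₁, hN₁, hle₁⟩ := hH
  obtain ⟨hN, hle⟩ := normal_le_inter (H := H) hN₁ hN' hle₁
  set N : Subgroup GQ := N' ⊓ N₁
  haveI := normal_of_level hN
  let X : H → ℚbˣ := fun h => f₀.1 none (h : GQ) / f₀.1 none 1
  have hsplit : ∀ h : H, (∀ g : GQ, f₀.1 none (g * h) / f₀.1 none g = g • X h) ∧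
      (fun v g => (f₀.1 v (g * h) / f₀.1 v g) / (f₀.1 none (g * h) / f₀.1 none g)) ∈ unitsOut T := by
    intro h
    have hh : (show (LT T).G from (h : GQ)) • c = c := hc _ h.2
    rw [← ofMul_toMul c, ← hf₀] at hh
    have hker : (show (LT T).G from (h : GQ)) • f₀ / f₀ ∈ classKer T :=
      QuotientGroup.eq_iff_div_mem.mp (congrArg Additive.toMul hh)
    rw [classKer, Subgroup.mem_subgroupOf, Subgroup.mem_sup] at hker
    obtain ⟨_, ⟨x, -, rfl⟩, u, hu, e⟩ := hker
    have e' : ∀ v g, f₀.1 v (g * h) / f₀.1 v g = g • x * u v g := fun v g =>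
      (congrFun (congrFun e v) g).symm
    have hn : ∀ g : GQ, f₀.1 none (g * h) / f₀.1 none g = g • x := fun g => by
      rw [e', hu.1, mul_one]
    have hX : X h = x := by
      show f₀.1 none (h : GQ) / _ = x
      have := hn 1
      rwa [one_mul, one_smul] at this
    refine ⟨fun g => by rw [hn, hX], ?_⟩
    convert hu using 1
    funext v g
    rw [e', hn, mul_div_cancel_left]
  obtain ⟨y, hyN, hy⟩ := exists_smul_div_eq_global hN hle X
    (fun g h => by
      rw [← (hsplit h).1 (g : GQ)]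
      show f₀.1 none ((g : GQ) * h) / f₀.1 none 1 = _
      exact (mul_comm _ _).trans (div_mul_div_cancel _ _ _) |>.symm)
    (fun g s hs => by
      show f₀.1 none ((g : GQ) * s) / _ = _
      rw [hfN' none _ _ hs.1])
  let dy : idele T := ⟨diag y, fun v d _ g => by
      show ((d : GQ) * g) • y = _
      rw [mul_smul]; rfl,
    ⟨N, hN, fun v g s hs => by
      show ((g : GQ) * s) • y = g • y
      rw [mul_smul, hyN s hs]⟩,
    diag_finite y⟩
  set f₁ := f₀ / dy
  let F : H → idele T := fun h => (show (LT T).G from (h : GQ)) • f₁ / f₁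
  have hF : ∀ (h : H) v g, (F h).1 v g =
      (f₀.1 v (g * h) / f₀.1 v g) / (f₀.1 none (g * h) / f₀.1 none g) := fun h v g => by
    show (f₀.1 v (g * h) / ((g * (h : GQ)) • y)) / (f₀.1 v g / (g • y)) = _
    rw [(hsplit h).1 g, hy h, mul_smul, smul_div', div_div_div_comm]
  obtain ⟨m, hmN, hm, hm1, hmU⟩ := exists_coc1_idele hN hle F
    (fun x y v g => by
      show f₁.1 v (g * ((x : GQ) * y)) / f₁.1 v g =
        f₁.1 v (g * x) / f₁.1 v g * (f₁.1 v (g * x * y) / f₁.1 v (g * x))
      rw [mul_comm, div_mul_div_cancel, mul_assoc])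
    (fun x s hs => Subtype.ext (funext fun v => funext fun g => by
      rw [hF, hF, Subgroup.coe_mul, ← mul_assoc, hfN' v _ _ hs.1, hfN' none _ _ hs.1]))
  have hu : m.1 ∈ unitsOut T := by
    refine ⟨fun g => hm1 none (fun x g => by rw [hF]; exact div_self' _) g,
      fun q hq g => hm1 (some q) (fun x g => ?_) g, fun q g => ?_⟩
    · rw [hF]; exact (hsplit x).2.2.1 q hq g
    · by_cases hq : q ∈ T
      · rw [hm1 (some q) (fun x g => by rw [hF]; exact (hsplit x).2.2.1 q hq g) g]
        exact one_mem _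
      · exact hmU q hq (fun x g => by rw [hF]; exact (hsplit x).2.2.2 q g) g
  refine ⟨f₁ / m, fun h hh => Subtype.ext (funext fun v => funext fun g => ?_), ?_⟩
  · have h2 : f₁.1 v (g * (show GQ from h)) / f₁.1 v g = m.1 v (g * (show GQ from h)) / m.1 v g :=
      hm ⟨h, hh⟩ v g
    show f₁.1 v (g * (show GQ from h)) / m.1 v (g * (show GQ from h)) = f₁.1 v g / m.1 v g
    rw [div_eq_div_iff_mul_eq_mul] at h2 ⊢
    rw [h2, mul_comm]
  · have hk : ∀ w : idele T, w ∈ classKer T → mkClass T w = 1 := fun w hw =>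
      (QuotientGroup.eq_one_iff w).mpr hw
    show Additive.ofMul (mkClass T (f₁ / m)) = c
    refine Additive.toMul.injective ?_
    show mkClass T (f₀ / dy / m) = c.toMul
    rw [map_div, map_div, hf₀, hk m (Subgroup.mem_subgroupOf.mpr (Subgroup.mem_sup_right hu)),
      hk dy (Subgroup.mem_subgroupOf.mpr (Subgroup.mem_sup_left ⟨y, ⟨N, hN, hyN⟩, rfl⟩)), div_one,
      div_one]

end Fermat.Agent.GD
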