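import Fermat.Agent.GD.Global.Basic.Components
import Fermat.Agent.GD.Global.Basic.Support

/-!
# Global cocycles supported at one place
-/

set_option autoImplicit false
set_option linter.style.haveILetI false

noncomputable section

namespace Fermat.Agent.GD

open Fermat.Agent.Galois (GQ)

local notation "ℚb" => AlgebraicClosure ℚ

/-- A local class is a component of a global cocycle supported at that place. -/
theorem exists_supported_cocycle_eq (T : Finset Nat.Primes) (v : Place)
    (z : (LD v).Z2 (Additive ℚbˣ)) :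
    ∃ T' : Finset Nat.Primes, T ⊆ T' ∧ v ∈ placesOf T' ∧ ∃ w : (LT T').Z2 (Additive (idele T')),
      (∀ x, ∀ v' ≠ v, ∀ g, (w.1 x).toMul.1 v' g = 1) ∧
      (LD v).IsB2 (Additive ℚbˣ) (locCochain v (fun x => (w.1 x).toMul) - z.1) := by
  classical
  obtain ⟨⟨_, ⟨N₀, ⟨F, hFd, hNF, hNn⟩, rfl⟩, hc'⟩, hcoc'⟩ := z.2
  obtain ⟨N, rfl⟩ : ∃ N : Subgroup GQ, N = N₀ := ⟨N₀, rfl⟩
  set c : decomp v × decomp v → Additive ℚbˣ := z.1 with hcz
  have hc : ∀ g g' s : decomp v, (s : GQ) ∈ N → ∀ s' : decomp v, (s' : GQ) ∈ N →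
      c (g * s, g' * s') = c (g, g') := fun g g' s hs s' hs' =>
    hc' g g' s (Subgroup.mem_subgroupOf.mpr hs) s' (Subgroup.mem_subgroupOf.mpr hs')
  have hcoc : ∀ g h j : decomp v, g • c (h, j) + c (g, h * j) = c (g * h, j) + c (g, h) := hcoc'
  haveI := hFd
  haveI := hNn
  obtain ⟨S, hS⟩ := exists_unramified_set F
  obtain ⟨T', hTT, hSS, hvT⟩ : ∃ T' : Finset Nat.Primes, T ⊆ T' ∧ S ⊆ T' ∧ v ∈ placesOf T' := by
    cases v with
    | none => exact ⟨T ∪ S, Finset.subset_union_left, Finset.subset_union_right,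
        Finset.mem_insertNone.mpr fun a ha => by simp at ha⟩
    | some q => exact ⟨insert q (T ∪ S), Finset.subset_union_left.trans (Finset.subset_insert _ _),
        Finset.subset_union_right.trans (Finset.subset_insert _ _),
        Finset.some_mem_insertNone.mpr (Finset.mem_insert_self _ _)⟩
  have hN : (LT T').IsLevel N := ⟨F, hS.mono hSS, hNF, hNn⟩
  refine ⟨T', hTT, hvT, ?_⟩
  -- the projection
  obtain ⟨π, hπe, hπN⟩ := exists_proj (D := decomp v) (H := (⊤ : Subgroup GQ)) (N := N) 1 le_top
  have hcj : ∀ e : locSub (decomp v) ⊤ (1 : GQ), ((cj e : (⊤ : Subgroup GQ)) : GQ) = ((e : decomp v) : GQ) :=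
    fun e => by rw [coe_cj]; group
  let c₀ : decomp v := (π 1).1⁻¹
  let P : GQ → decomp v := fun g => (π ⟨g, trivial⟩).1 * c₀
  let C : decomp v → decomp v → Prop := fun a b => (a : GQ)⁻¹ * b ∈ N
  have hCmul : ∀ a b k : decomp v, C a b → C (a * k) (b * k) := fun a b k h => by
    show ((a : GQ) * k)⁻¹ * ((b : GQ) * k) ∈ N
    have := hNn.conj_mem _ h (k : GQ)⁻¹
    convert this using 1
    group
  have hPe : ∀ (d : decomp v) (g : GQ), C (P ((d : GQ) * g)) (d * P g) := fun d g => by
    have h := hπe ⟨d, trivial⟩ ⟨g, trivial⟩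
    rw [show cj (⟨d, trivial⟩ : locSub (decomp v) ⊤ (1 : GQ)) * ⟨g, trivial⟩ =
      ⟨(d : GQ) * g, trivial⟩ from Subtype.ext (by rw [Subgroup.coe_mul, hcj]), hcj, hcj] at h
    show C _ (d * ((π ⟨g, trivial⟩).1 * c₀))
    rw [← mul_assoc]
    exact hCmul _ _ c₀ h
  have hPN : ∀ (g s : GQ), s ∈ N → C (P (g * s)) (P g) := fun g s hs => by
    have h := hπN ⟨g, trivial⟩ ⟨s, trivial⟩ hs
    rw [hcj, hcj] at h
    exact hCmul _ _ c₀ h
  have hP1 : P 1 = 1 := mul_inv_cancel _
  have hPd : ∀ d : decomp v, C (P d) d := fun d => by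
    have := hPe d 1
    rwa [mul_one, hP1, mul_one] at this
  -- homogeneous cocycle
  let Ψ : decomp v → decomp v → decomp v → Additive ℚbˣ := fun a b e => a • c (a⁻¹ * b, b⁻¹ * e)
  have hone : ∀ j, c (1, j) = c (1, 1) := fun j => by
    have := hcoc (1 : decomp v) (1 : decomp v) j
    simp only [one_mul] at this
    rw [one_smul] at this
    exact add_left_cancel this
  have hfix : ∀ (s : decomp v), (s : GQ) ∈ N → ∀ h j, s • c (h, j) = c (h, j) := by
    intro s hs h j
    have e0 : ∀ j, c (s, j) = c (1, 1) := fun j => by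
      have := hc (1 : decomp v) j s hs 1 N.one_mem
      simp only [one_mul, mul_one] at this
      exact this.trans (hone j)
    have e1 : c (s * h, j) = c (h, j) := by
      have := hc h j (h⁻¹ * s * h) (by simpa using! hNn.conj_mem _ hs (h : GQ)⁻¹) 1 N.one_mem
      rwa [show h * (h⁻¹ * s * h) = s * h by group, mul_one] at this
    have := hcoc s h j
    change s • c (h, j) + c (s, h * j) = c (s * h, j) + c (s, h) at this
    rw [e0, e0, e1] at this
    exact add_right_cancel this
  have hΨC : ∀ a a' b b' e e', C a a' → C b b' → C e e' → Ψ a b e = Ψ a' b' e' := by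
    intro a a' b b' e e' ha hb he
    show a • c _ = a' • c _
    have hna : (((a⁻¹ * b)⁻¹ * (a'⁻¹ * b') : decomp v) : GQ) ∈ N := by
      have h1 := hNn.conj_mem _ (N.inv_mem ha) ((a : GQ)⁻¹ * b)⁻¹
      have h3 := N.mul_mem h1 hb
      convert h3 using 1
      simp only [Subgroup.coe_mul, Subgroup.coe_inv]
      group
    have hnb : (((b⁻¹ * e)⁻¹ * (b'⁻¹ * e') : decomp v) : GQ) ∈ N := by
      have h3 := N.mul_mem (hNn.conj_mem _ (N.inv_mem hb) ((b : GQ)⁻¹ * e)⁻¹) he
      convert h3 using 1
      simp only [Subgroup.coe_mul, Subgroup.coe_inv]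
      group
    have h4 : c (a'⁻¹ * b', b'⁻¹ * e') = c (a⁻¹ * b, b⁻¹ * e) := by
      have := hc (a⁻¹ * b) (b⁻¹ * e) _ hna _ hnb
      rwa [mul_inv_cancel_left, mul_inv_cancel_left] at this
    rw [h4, show a' = a * (a⁻¹ * a') from (mul_inv_cancel_left _ _).symm, mul_smul,
      hfix (a⁻¹ * a') ha]
  have hrefl : ∀ a, C a a := fun a => by show (a : GQ)⁻¹ * a ∈ N; rw [inv_mul_cancel]; exact N.one_mem
  have hΨd : ∀ d a b e, Ψ (d * a) (d * b) (d * e) = d • Ψ a b e := fun d a b e => by
    show (d * a) • c _ = d • a • c _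
    rw [mul_smul, show (d * a)⁻¹ * (d * b) = a⁻¹ * b by group,
      show (d * b)⁻¹ * (d * e) = b⁻¹ * e by group]
  have hΨc : ∀ a b e k, Ψ b e k + Ψ a b k = Ψ a e k + Ψ a b e := fun a b e k => by
    have := hcoc (a⁻¹ * b) (b⁻¹ * e) (e⁻¹ * k)
    change (a⁻¹ * b) • c _ + c _ = c _ + c _ at this
    rw [show b⁻¹ * e * (e⁻¹ * k) = b⁻¹ * k by group, show a⁻¹ * b * (b⁻¹ * e) = a⁻¹ * e by group] at this
    show b • c _ + a • c _ = a • c _ + a • c _
    rw [← smul_add, ← this, smul_add, ← mul_smul, mul_inv_cancel_left]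
  let W : GQ → GQ → Place → GQ → Additive ℚbˣ := fun x y v' g =>
    if v' = v then Ψ (P g) (P (g * x)) (P (g * x * y)) else 0
  have hW : ∀ x y v', IsComp (decomp v') N (W x y v') := fun x y v' => by
    by_cases h : v' = v
    · subst h
      refine ⟨fun d g => ?_, fun g s hs => ?_⟩
      · simp only [W, if_true, mul_assoc (d : GQ)]
        rw [hΨC _ _ _ _ _ _ (hPe d g) (hPe d (g * x)) (hPe d (g * x * y)), hΨd]
      · simp only [W, if_true]
        refine hΨC _ _ _ _ _ _ (hPN g s hs) ?_ ?_
        · rw [show g * s * x = g * x * (x⁻¹ * s * x) by group]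
          exact hPN _ _ (by simpa using! hNn.conj_mem _ hs x⁻¹)
        · rw [show g * s * x * y = g * x * y * ((x * y)⁻¹ * s * (x * y)) by group]
          exact hPN _ _ (by simpa using! hNn.conj_mem _ hs (x * y)⁻¹)
    · exact ⟨fun d g => by simp only [W, if_neg h, smul_zero], fun g s _ => by simp only [W, if_neg h]⟩
  have hfin : ∀ x y, {q : Nat.Primes | ∃ g, W x y (some q) g ∉ unitA q}.Finite := fun x y => by
    refine ((Set.finite_singleton v).preimage (Option.some_injective _).injOn).subset
      fun q ⟨g, hg⟩ => by_contra fun h => hg ?_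
    simp only [W, if_neg (show (some q : Place) ≠ v from h)]
    exact zero_mem _
  let w : (LT T').G × (LT T').G → Additive (idele T') := fun u =>
    Additive.ofMul (ideleOfComp hN (fun v' => W u.1 u.2 v') (fun v' => hW _ _ v') (hfin u.1 u.2))
  have hw : w ∈ (LT T').Z2 (Additive (idele T')) := by
    refine ⟨⟨N, hN, fun x y s hs t ht => ?_⟩, fun x y k => ?_⟩
    · refine Additive.toMul.injective (Subtype.ext (funext fun v' => funext fun g => ?_))
      show (W _ _ v' g).toMul = (W _ _ v' g).toMul
      refine congrArg Additive.toMul ?_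
      by_cases h : v' = v
      swap
      · simp only [W, if_neg h]
      simp only [W, if_pos h]
      refine hΨC _ _ _ _ _ _ (hrefl _) ?_ ?_
      · show C (P (g * ((show GQ from x) * (show GQ from s)))) _
        rw [← mul_assoc]; exact hPN _ _ hs
      · show C (P (g * ((show GQ from x) * (show GQ from s)) * ((show GQ from y) * (show GQ from t)))) _
        rw [show g * ((show GQ from x) * (show GQ from s)) * ((show GQ from y) * (show GQ from t)) =
          g * (show GQ from x) * (show GQ from y) * (((show GQ from y)⁻¹ * (show GQ from s) *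
            (show GQ from y)) * (show GQ from t)) by group]
        exact hPN _ _ (N.mul_mem (by simpa using! hNn.conj_mem _ hs (show GQ from y)⁻¹) ht)
    · refine Additive.toMul.injective (Subtype.ext (funext fun v' => funext fun g => ?_))
      show (W y k v' (g * (show GQ from x))).toMul * (W x _ v' g).toMul =
        (W _ k v' g).toMul * (W x y v' g).toMul
      refine congrArg Additive.toMul (?_ : W y k v' (g * (show GQ from x)) +
        W x ((show GQ from y) * (show GQ from k)) v' g =
        W ((show GQ from x) * (show GQ from y)) k v' g + W x y v' g)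
      by_cases h : v' = v
      swap
      · simp only [W, if_neg h]
      simp only [W, if_pos h, ← mul_assoc]
      exact hΨc _ _ _ _
  refine ⟨⟨w, hw⟩, fun x v' hv' g => ?_, ?_⟩
  · show (W _ _ v' g).toMul = 1
    simp only [W, if_neg hv', toMul_zero]
  · refine ⟨0, LevelGroup.const₁_const _ 0, funext fun u => ?_⟩
    rw [map_zero, Pi.zero_apply, Pi.sub_apply]
    refine (sub_eq_zero.mpr ?_).symm
    show W _ _ v 1 = c u
    obtain ⟨a, b⟩ := u
    simp only [W, if_true, one_mul]
    refine (hΨC (P 1) 1 _ a (P ((a : decomp v).1 * (b : decomp v).1)) ((show decomp v from a) * (show decomp v from b))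
      (by rw [hP1]; exact hrefl _) (hPd a) (hPd _)).trans ?_
    show (1 : decomp v) • c (1⁻¹ * (show decomp v from a), (show decomp v from a)⁻¹ * ((show decomp v from a) * (show decomp v from b))) = c (show decomp v from a, show decomp v from b)
    rw [one_smul, inv_one, one_mul, inv_mul_cancel_left]

end Fermat.Agent.GD
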