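import Mathlib

/-!
# Cocycles of functions equivariant under a subgroup

Explicit form of Shapiro's lemma in degrees one and two: a cocycle of equivariant functions is a
coboundary as soon as its restrictions to the stabilisers of the double cosets are.
-/

set_option autoImplicit false
set_option linter.unusedSectionVars false

noncomputable section

namespace Fermat.Agent.GD

variable {G : Type} [Group G] {D : Subgroup G} {A : Type} [AddCommGroup A] [DistribMulAction D A]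

/-- Equivariant on the left and invariant on the right. -/
structure IsComp (D : Subgroup G) [DistribMulAction D A] (N : Subgroup G) (F : G → A) : Prop where
  equiv : ∀ (d : D) (g : G), F ((d : G) * g) = d • F g
  inv : ∀ g : G, ∀ s ∈ N, F (g * s) = F g

variable (D) in
/-- The stabiliser of a double coset. -/
def locSub (H : Subgroup G) (r : G) : Subgroup D :=
  H.comap ((MulAut.conj r⁻¹).toMonoidHom.comp D.subtype)

/-- The conjugated element. -/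
def cj {H : Subgroup G} {r : G} (d : locSub D H r) : H :=
  ⟨(MulAut.conj r⁻¹) ((d : D) : G), d.2⟩

theorem coe_cj {H : Subgroup G} {r : G} (d : locSub D H r) :
    ((cj d : H) : G) = r⁻¹ * ((d : D) : G) * r := by
  show r⁻¹ * ((d : D) : G) * r⁻¹⁻¹ = _
  rw [inv_inv]

theorem mul_cj {H : Subgroup G} {r : G} (d : locSub D H r) :
    r * ((cj d : H) : G) = ((d : D) : G) * r := by rw [coe_cj]; group

theorem cj_mul {H : Subgroup G} {r : G} (d e : locSub D H r) : cj (d * e) = cj d * cj e :=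
  Subtype.ext (by rw [Subgroup.coe_mul, coe_cj, coe_cj, coe_cj, Subgroup.coe_mul, Subgroup.coe_mul]; group)

theorem cj_inv {H : Subgroup G} {r : G} (d : locSub D H r) : cj d⁻¹ = (cj d)⁻¹ :=
  Subtype.ext (by rw [Subgroup.coe_inv, coe_cj, coe_cj, Subgroup.coe_inv, Subgroup.coe_inv]; group)

variable (D) in
/-- The chosen representative of the double coset. -/
def dRep (H : Subgroup G) (g : G) : G :=
  (DoubleCoset.mk D H g : DoubleCoset.Quotient (D : Set G) (H : Set G)).out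

theorem exists_eq_dRep (H : Subgroup G) (g : G) :
    ∃ (d : D) (k : H), g = (d : G) * dRep D H g * (k : G) := by
  obtain ⟨a, b, ha, hb, e⟩ := DoubleCoset.mk_out_eq_mul D H g
  refine ⟨⟨a⁻¹, D.inv_mem ha⟩, ⟨b⁻¹, H.inv_mem hb⟩, ?_⟩
  rw [dRep, e]; group

theorem dRep_congr {H : Subgroup G} (g : G) (d : D) (k : H) :
    dRep D H ((d : G) * g * (k : G)) = dRep D H g := by
  unfold dRep
  rw [(DoubleCoset.eq D H g ((d : G) * g * k)).mpr ⟨d, d.2, k, k.2, rfl⟩]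

theorem dRep_dRep (H : Subgroup G) (g : G) : dRep D H (dRep D H g) = dRep D H g := by
  unfold dRep
  rw [DoubleCoset.out_eq']

/-- Functions defined on the double cosets. -/
theorem exists_glue {H : Subgroup G} (F : G → H → A)
    (hF : ∀ r (e : locSub D H r) (k : H), F r (cj e * k) = (e : D) • F r k) :
    ∃ B : G → A, ∀ (d : D) (g : G) (k : H),
      B ((d : G) * dRep D H g * (k : G)) = d • F (dRep D H g) k := by
  choose d k h using exists_eq_dRep (D := D) H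
  refine ⟨fun g => d g • F (dRep D H g) (k g), fun d' g k' => ?_⟩
  set x := (d' : G) * dRep D H g * (k' : G) with hx
  have hr : dRep D H x = dRep D H g := by rw [hx, dRep_congr, dRep_dRep]
  show d x • F (dRep D H x) (k x) = _
  have e1 : (d x : G) * dRep D H g * (k x : G) = (d' : G) * dRep D H g * (k' : G) := by
    rw [← hr]; exact (h x).symm.trans (by rw [hr])
  rw [hr]
  set r := dRep D H g
  have hmem : ((d x)⁻¹ * d' : D) ∈ locSub D H r := by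
    show r⁻¹ * (((d x)⁻¹ * d' : D) : G) * r⁻¹⁻¹ ∈ H
    have : r⁻¹ * (((d x)⁻¹ * d' : D) : G) * r⁻¹⁻¹ = (k x : G) * (k' : G)⁻¹ := by
      rw [Subgroup.coe_mul, Subgroup.coe_inv,
        show (k x : G) = r⁻¹ * (d x : G)⁻¹ * ((d' : G) * r * k') by rw [← e1]; group]
      group
    rw [this]
    exact H.mul_mem (k x).2 (H.inv_mem k'.2)
  have hk : k x = cj ⟨_, hmem⟩ * k' := Subtype.ext (by
    rw [Subgroup.coe_mul, coe_cj, Subgroup.coe_mul, Subgroup.coe_inv,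
      show (k x : G) = r⁻¹ * (d x : G)⁻¹ * ((d' : G) * r * k') by rw [← e1]; group]
    group)
  rw [hk, hF, ← mul_smul, mul_inv_cancel_left]

variable {N : Subgroup G}

/-- Degree one. -/
theorem shapiro_one {H : Subgroup G} (hle : N ≤ H) (U : AddSubgroup A)
    (hU : ∀ (d : D), ∀ a ∈ U, d • a ∈ U) (f : H → G → A) (hcomp : ∀ x, IsComp D N (f x))
    (hcoc : ∀ (x y : H) g, f (x * y) g = f x g + f y (g * (x : G)))
    (hN : ∀ x s : H, (s : G) ∈ N → f (x * s) = f x) (hfU : ∀ x g, f x g ∈ U)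
    (hloc : ∀ r, ∃ b ∈ U, ∀ d : locSub D H r, f (cj d) r = (d : D) • b - b) :
    ∃ B : G → A, IsComp D N B ∧ (∀ g, B g ∈ U) ∧
      ∀ (x : H) g, f x g = B (g * (x : G)) - B g := by
  choose b hbU hb using hloc
  obtain ⟨B, hB⟩ := exists_glue (D := D) (fun r (k : H) => f k r + b r) fun r e k => by
    show f (cj e * k) r + b r = _
    rw [hcoc, hb, mul_cj, (hcomp k).equiv, smul_add]; abel
  refine ⟨B, ⟨fun d g => ?_, fun g s hs => ?_⟩, fun g => ?_, fun x g => ?_⟩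
  all_goals
    obtain ⟨d', k, hg⟩ := exists_eq_dRep (D := D) H g
    have hB' := fun d k => hB d g k
    clear hB
    generalize dRep D H g = r at hg hB'
    subst hg
  · rw [show (d : G) * ((d' : G) * r * k) = ((d * d' : D) : G) * r * k by
      rw [Subgroup.coe_mul]; group, hB', hB', mul_smul]
  · rw [mul_assoc _ (k : G) s, show (k : G) * s = ((k * ⟨s, hle hs⟩ : H) : G) from rfl, hB', hB',
      hN k ⟨s, hle hs⟩ hs]
  · rw [hB']
    exact hU _ _ (U.add_mem (hfU _ _) (hbU _))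
  · rw [mul_assoc _ (k : G) (x : G), ← Subgroup.coe_mul, hB', hB', hcoc, mul_assoc _ _ (k : G),
      (hcomp x).equiv, ← smul_sub]
    congr 1
    abel

theorem cj_congr_smul [N.Normal] {H : Subgroup G} {r : G} {e e' : locSub D H r}
    (h : ((cj e : H) : G)⁻¹ * ((cj e' : H) : G) ∈ N) {F : G → A} (hF : IsComp D N F) (k : H) :
    (e : D) • F (r * (k : G)) = (e' : D) • F (r * (k : G)) := by
  have h2 := Subgroup.Normal.conj_mem ‹N.Normal› _ h (k : G)⁻¹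
  have h1 : ((e' : D) : G) * (r * (k : G)) = ((e : D) : G) * (r * (k : G)) *
      ((k : G)⁻¹ * (((cj e : H) : G)⁻¹ * ((cj e' : H) : G)) * (k : G)⁻¹⁻¹) := by
    rw [coe_cj, coe_cj]; group
  rw [← hF.equiv, ← hF.equiv, h1, hF.inv _ _ h2]

/-- An equivariant retraction onto the stabiliser, modulo the level. -/
theorem exists_proj [N.Normal] {H : Subgroup G} (r : G) (hle : N ≤ H) :
    ∃ π : H → locSub D H r,
      (∀ (e : locSub D H r) (a : H), ((cj (π (cj e * a)) : H) : G)⁻¹ * ((cj (e * π a) : H) : G) ∈ N) ∧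
      ∀ a s : H, (s : G) ∈ N → ((cj (π (a * s)) : H) : G)⁻¹ * ((cj (π a) : H) : G) ∈ N := by
  set NH := N.subgroupOf H
  let c : locSub D H r →* H :=
    { toFun := cj
      map_one' := Subtype.ext (by rw [coe_cj, Subgroup.coe_one, Subgroup.coe_one, Subgroup.coe_one]; group)
      map_mul' := cj_mul }
  set K := c.range ⊔ NH
  have hdec : ∀ x ∈ K, ∃ e : locSub D H r, (cj e)⁻¹ * x ∈ NH := by
    intro x hx
    rw [← SetLike.mem_coe, Subgroup.mul_normal] at hx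
    obtain ⟨_, ⟨e, rfl⟩, n, hn, rfl⟩ := hx
    exact ⟨e, by simpa [c] using hn⟩
  let σ : H → H := fun a => ((QuotientGroup.mk a⁻¹ : H ⧸ K).out)⁻¹
  have hσ : ∀ a, a * (σ a)⁻¹ ∈ K := fun a => by
    have := QuotientGroup.eq.mp (QuotientGroup.out_eq' (QuotientGroup.mk a⁻¹ : H ⧸ K)).symm
    rwa [inv_inv, ← inv_inv (QuotientGroup.mk a⁻¹ : H ⧸ K).out] at this
  have hσmul : ∀ a, ∀ x ∈ K, σ (x * a) = σ a := fun a x hx => by
    show ((QuotientGroup.mk (x * a)⁻¹ : H ⧸ K).out)⁻¹ = _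
    rw [show (QuotientGroup.mk (x * a)⁻¹ : H ⧸ K) = QuotientGroup.mk a⁻¹ from
      QuotientGroup.eq.mpr (by simpa using! hx)]
  choose π hπ using fun a => hdec _ (hσ a)
  have key : ∀ a : H, ∀ x ∈ K, ∀ e : locSub D H r, (cj e)⁻¹ * x ∈ NH → (cj (π (x * a)))⁻¹ * cj (e * π a) ∈ NH := by
    intro a x hx e he
    have h1 := hπ (x * a)
    rw [hσmul a x hx] at h1
    have h2 := hπ a
    have : (cj (π (x * a)))⁻¹ * cj (e * π a) = ((cj (π (x * a)))⁻¹ * (x * a * (σ a)⁻¹)) *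
        (((cj (π a))⁻¹ * (a * (σ a)⁻¹))⁻¹) *
          ((cj (π a))⁻¹ * ((cj e)⁻¹ * x)⁻¹ * cj (π a)) := by
      rw [cj_mul]; group
    rw [this]
    exact NH.mul_mem (NH.mul_mem h1 (NH.inv_mem h2))
      (by simpa using! (inferInstance : NH.Normal).conj_mem _ (NH.inv_mem he) (cj (π a))⁻¹)
  refine ⟨π, fun e a => key a _ (Subgroup.mem_sup_left ⟨e, rfl⟩) e (by
      show (cj e)⁻¹ * cj e ∈ NH
      rw [inv_mul_cancel]; exact NH.one_mem), fun a s hs => ?_⟩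
  have hx : a * s * a⁻¹ ∈ NH := (inferInstance : NH.Normal).conj_mem s hs a
  have := key a (a * s * a⁻¹) (Subgroup.mem_sup_right hx) 1 (by
    simpa [← cj_inv, show cj (1 : locSub D H r) = 1 from c.map_one] using! hx)
  rw [inv_mul_cancel_right, one_mul] at this
  exact this

/-- Degree two. -/
theorem shapiro_two [N.Normal] {H : Subgroup G} (hle : N ≤ H) (U : AddSubgroup A)
    (hU : ∀ (d : D), ∀ a ∈ U, d • a ∈ U) (z : H → H → G → A)
    (hcomp : ∀ x y, IsComp D N (z x y))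
    (hcoc : ∀ (x y w : H) g, z y w (g * (x : G)) + z x (y * w) g = z (x * y) w g + z x y g)
    (hN : ∀ x y s t : H, (s : G) ∈ N → (t : G) ∈ N → z (x * s) (y * t) = z x y)
    (hzU : ∀ x y g, z x y g ∈ U)
    (hloc : ∀ r, ∃ b : locSub D H r → A, (∀ d, b d ∈ U) ∧
      (∀ d s, ((cj s : H) : G) ∈ N → b (d * s) = b d) ∧
      (∀ d s : locSub D H r, ((cj s : H) : G) ∈ N → (s : D) • b d = b d) ∧
      ∀ d e : locSub D H r, z (cj d) (cj e) r = (d : D) • b e - b (d * e) + b d) :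
    ∃ B : H → G → A, (∀ x, IsComp D N (B x)) ∧ (∀ x g, B x g ∈ U) ∧
      (∀ x s : H, (s : G) ∈ N → B (x * s) = B x) ∧
      ∀ (x y : H) g, z x y g = B y (g * (x : G)) - B (x * y) g + B x g := by
  choose b hbU hbN hbfix hb using hloc
  choose π hπe hπN using fun r => exists_proj (D := D) (H := H) r hle
  let P : G → H → H → H → A := fun r a₀ a₁ a₂ => z (a₀⁻¹ * a₁) (a₁⁻¹ * a₂) (r * (a₀ : G))
  have hnorm : ∀ (a s : H), (s : G) ∈ N → ∃ t : H, (t : G) ∈ N ∧ s * a = a * t := fun a s hs =>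
    ⟨a⁻¹ * s * a, by simpa using! Subgroup.Normal.conj_mem ‹N.Normal› _ hs (a : G)⁻¹, by group⟩
  have hPN : ∀ r (a₀ a₁ a₂ s₀ s₁ s₂ : H), (s₀ : G) ∈ N → (s₁ : G) ∈ N → (s₂ : G) ∈ N →
      P r (a₀ * s₀) (a₁ * s₁) (a₂ * s₂) = P r a₀ a₁ a₂ := by
    intro r a₀ a₁ a₂ s₀ s₁ s₂ h₀ h₁ h₂
    obtain ⟨t₀, ht₀, e₀⟩ := hnorm (a₀⁻¹ * a₁) s₀⁻¹ (N.inv_mem h₀)
    obtain ⟨t₁, ht₁, e₁⟩ := hnorm (a₁⁻¹ * a₂) s₁⁻¹ (N.inv_mem h₁)
    show z _ _ _ = z _ _ _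
    rw [show (a₀ * s₀)⁻¹ * (a₁ * s₁) = a₀⁻¹ * a₁ * (t₀ * s₁) by
        rw [mul_inv_rev, ← mul_assoc (a₀⁻¹ * a₁), ← e₀]; group,
      show (a₁ * s₁)⁻¹ * (a₂ * s₂) = a₁⁻¹ * a₂ * (t₁ * s₂) by
        rw [mul_inv_rev, ← mul_assoc (a₁⁻¹ * a₂), ← e₁]; group,
      hN _ _ _ _ (N.mul_mem ht₀ h₁) (N.mul_mem ht₁ h₂), Subgroup.coe_mul, ← mul_assoc,
      (hcomp _ _).inv _ _ h₀]
  have hPe : ∀ r (e : locSub D H r) (a₀ a₁ a₂ : H),
      P r (cj e * a₀) (cj e * a₁) (cj e * a₂) = (e : D) • P r a₀ a₁ a₂ := fun r e a₀ a₁ a₂ => by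
    show z _ _ _ = _ • z _ _ _
    rw [← (hcomp _ _).equiv, Subgroup.coe_mul, ← mul_assoc r, mul_cj, mul_assoc]
    congr 1 <;> group
  have hPc : ∀ r (a₀ a₁ a₂ a₃ : H), P r a₁ a₂ a₃ + P r a₀ a₁ a₃ = P r a₀ a₂ a₃ + P r a₀ a₁ a₂ :=
    fun r a₀ a₁ a₂ a₃ => by
      have := hcoc (a₀⁻¹ * a₁) (a₁⁻¹ * a₂) (a₂⁻¹ * a₃) (r * (a₀ : G))
      rw [show r * (a₀ : G) * ((a₀⁻¹ * a₁ : H) : G) = r * (a₁ : G) by simp [mul_assoc],
        show a₁⁻¹ * a₂ * (a₂⁻¹ * a₃) = a₁⁻¹ * a₃ by group,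
        show a₀⁻¹ * a₁ * (a₁⁻¹ * a₂) = a₀⁻¹ * a₂ by group] at this
      exact this
  let Bh : G → H → H → A := fun r a₀ a₁ =>
    (π r a₀ : D) • b r ((π r a₀)⁻¹ * π r a₁) + P r (cj (π r a₀)) a₀ a₁ -
      P r (cj (π r a₀)) (cj (π r a₁)) a₁
  -- congruent projections give the same values
  have hcongr : ∀ r (e₀ e₁ f₀ f₁ : locSub D H r), ((cj e₀ : H) : G)⁻¹ * (cj f₀ : H) ∈ N →
      ((cj e₁ : H) : G)⁻¹ * (cj f₁ : H) ∈ N →
      (e₀ : D) • b r (e₀⁻¹ * e₁) = (f₀ : D) • b r (f₀⁻¹ * f₁) := by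
    intro r e₀ e₁ f₀ f₁ h₀ h₁
    have hm₀ : ((cj (e₀⁻¹ * f₀) : H) : G) ∈ N := by rwa [cj_mul, cj_inv, Subgroup.coe_mul, Subgroup.coe_inv]
    have hm₁ : ((cj (e₁⁻¹ * f₁) : H) : G) ∈ N := by rwa [cj_mul, cj_inv, Subgroup.coe_mul, Subgroup.coe_inv]
    have hm₂ : ((cj ((e₀⁻¹ * e₁)⁻¹ * (e₀⁻¹ * f₀)⁻¹ * (e₀⁻¹ * e₁)) : H) : G) ∈ N := by
      rw [cj_mul, cj_mul, cj_inv, cj_inv (e₀⁻¹ * f₀), Subgroup.coe_mul, Subgroup.coe_mul,
        Subgroup.coe_inv, Subgroup.coe_inv]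
      simpa using! Subgroup.Normal.conj_mem ‹N.Normal› _ (N.inv_mem hm₀) ((cj (e₀⁻¹ * e₁) : H) : G)⁻¹
    rw [show (f₀ : D) = (e₀ : D) * ((e₀⁻¹ * f₀ : locSub D H r) : D) by simp, mul_smul,
      show f₀⁻¹ * f₁ = e₀⁻¹ * e₁ *
        ((e₀⁻¹ * e₁)⁻¹ * (e₀⁻¹ * f₀)⁻¹ * (e₀⁻¹ * e₁) * (e₁⁻¹ * f₁)) by group,
      hbN r (e₀⁻¹ * e₁) ((e₀⁻¹ * e₁)⁻¹ * (e₀⁻¹ * f₀)⁻¹ * (e₀⁻¹ * e₁) * (e₁⁻¹ * f₁))
        (by rw [cj_mul, Subgroup.coe_mul]; exact N.mul_mem hm₂ hm₁),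
      hbfix r (e₀⁻¹ * e₁) (e₀⁻¹ * f₀) hm₀]
  have hPcongr : ∀ r (a₀ a₁ a₂ b₀ b₁ b₂ : H), (a₀ : G)⁻¹ * b₀ ∈ N → (a₁ : G)⁻¹ * b₁ ∈ N →
      (a₂ : G)⁻¹ * b₂ ∈ N → P r a₀ a₁ a₂ = P r b₀ b₁ b₂ := fun r a₀ a₁ a₂ b₀ b₁ b₂ h₀ h₁ h₂ => by
    rw [← hPN r a₀ a₁ a₂ (a₀⁻¹ * b₀) (a₁⁻¹ * b₁) (a₂⁻¹ * b₂) h₀ h₁ h₂]
    simp only [mul_inv_cancel_left]
  have hBe : ∀ r (e : locSub D H r) (a₀ a₁ : H),
      Bh r (cj e * a₀) (cj e * a₁) = (e : D) • Bh r a₀ a₁ := fun r e a₀ a₁ => by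
    have hrefl : ∀ a : H, (a : G)⁻¹ * a ∈ N := fun a => by rw [inv_mul_cancel]; exact N.one_mem
    simp only [Bh]
    rw [hcongr r _ _ _ _ (hπe r e a₀) (hπe r e a₁),
      hPcongr r _ _ _ _ _ _ (hπe r e a₀) (hrefl _) (hrefl _),
      hPcongr r (cj (π r (cj e * a₀))) _ _ _ _ _ (hπe r e a₀) (hπe r e a₁) (hrefl _),
      show (e * π r a₀)⁻¹ * (e * π r a₁) = (π r a₀)⁻¹ * π r a₁ by group, Subgroup.coe_mul, mul_smul,
      cj_mul, cj_mul, hPe, hPe, smul_sub, smul_add]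
  have hBN : ∀ r (a₀ a₁ s₀ s₁ : H), (s₀ : G) ∈ N → (s₁ : G) ∈ N →
      Bh r (a₀ * s₀) (a₁ * s₁) = Bh r a₀ a₁ := fun r a₀ a₁ s₀ s₁ h₀ h₁ => by
    have hs : ∀ (a s : H), (s : G) ∈ N → ((a * s : H) : G)⁻¹ * a ∈ N := fun a s hs => by
      rw [Subgroup.coe_mul, mul_inv_rev, inv_mul_cancel_right]; exact N.inv_mem hs
    simp only [Bh]
    rw [hcongr r _ _ _ _ (hπN r a₀ s₀ h₀) (hπN r a₁ s₁ h₁),
      hPcongr r _ _ _ _ _ _ (hπN r a₀ s₀ h₀) (hs a₀ s₀ h₀) (hs a₁ s₁ h₁),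
      hPcongr r (cj (π r (a₀ * s₀))) _ _ _ _ _ (hπN r a₀ s₀ h₀) (hπN r a₁ s₁ h₁) (hs a₁ s₁ h₁)]
  have hBd : ∀ r (a₀ a₁ a₂ : H),
      P r a₀ a₁ a₂ = Bh r a₁ a₂ - Bh r a₀ a₂ + Bh r a₀ a₁ := by
    intro r a₀ a₁ a₂
    set p₀ := π r a₀
    set p₁ := π r a₁
    set p₂ := π r a₂
    have hp : P r (cj p₀) (cj p₁) (cj p₂) = (p₁ : D) • b r (p₁⁻¹ * p₂) -
        (p₀ : D) • b r (p₀⁻¹ * p₂) + (p₀ : D) • b r (p₀⁻¹ * p₁) := by
      show z _ _ _ = _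
      rw [← cj_inv, ← cj_inv, ← cj_mul, ← cj_mul, mul_cj, (hcomp _ _).equiv, hb, smul_add, smul_sub,
        ← mul_smul, show p₀⁻¹ * p₁ * (p₁⁻¹ * p₂) = p₀⁻¹ * p₂ by group, Subgroup.coe_mul,
        Subgroup.coe_inv, mul_inv_cancel_left]
    have e1 := hPc r (cj p₀) a₀ a₁ a₂
    have e2 := hPc r (cj p₀) (cj p₁) a₁ a₂
    have e3 := hPc r (cj p₀) (cj p₁) (cj p₂) a₂
    rw [hp] at e3
    simp only [Bh]
    rw [show P r a₀ a₁ a₂ = P r (cj p₀) a₁ a₂ + P r (cj p₀) a₀ a₁ - P r (cj p₀) a₀ a₂ from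
      eq_sub_of_add_eq e1,
      show P r (cj p₀) a₁ a₂ = P r (cj p₁) a₁ a₂ + P r (cj p₀) (cj p₁) a₂ -
        P r (cj p₀) (cj p₁) a₁ from eq_sub_of_add_eq e2.symm,
      show P r (cj p₀) (cj p₁) a₂ = P r (cj p₀) (cj p₂) a₂ +
        ((p₁ : D) • b r (p₁⁻¹ * p₂) - (p₀ : D) • b r (p₀⁻¹ * p₂) + (p₀ : D) • b r (p₀⁻¹ * p₁)) -
        P r (cj p₁) (cj p₂) a₂ from eq_sub_of_add_eq (by rw [add_comm]; exact e3)]
    abel
  have hBU : ∀ r a₀ a₁, Bh r a₀ a₁ ∈ U := fun r a₀ a₁ =>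
    U.sub_mem (U.add_mem (hU _ _ (hbU _ _)) (hzU _ _ _)) (hzU _ _ _)
  have hglue : ∀ x : H, ∀ r (e : locSub D H r) (k : H),
      Bh r (cj e * k) (cj e * k * x) = (e : D) • Bh r k (k * x) := fun x r e k => by
    rw [mul_assoc, hBe]
  choose B hB using fun x : H => exists_glue (D := D) (fun r k => Bh r k (k * x)) (hglue x)
  refine ⟨B, fun x => ⟨fun d g => ?_, fun g s hs => ?_⟩, fun x g => ?_,
    fun x s hs => funext fun g => ?_, fun x y g => ?_⟩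
  all_goals
    obtain ⟨d', k, hg⟩ := exists_eq_dRep (D := D) H g
    have hB' := fun x d k => hB x d g k
    clear hB
    generalize dRep D H g = r at hg hB'
    subst hg
  · rw [show (d : G) * ((d' : G) * r * k) = ((d * d' : D) : G) * r * k by
      rw [Subgroup.coe_mul]; group, hB', hB', mul_smul]
  · rw [mul_assoc _ (k : G) s, show (k : G) * s = ((k * ⟨s, hle hs⟩ : H) : G) from rfl, hB', hB']
    obtain ⟨t, ht, e⟩ := hnorm x ⟨s, hle hs⟩ hs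
    congr 1
    rw [show k * ⟨s, hle hs⟩ * x = k * x * t by rw [mul_assoc, e, mul_assoc]]
    exact hBN _ _ _ ⟨s, hle hs⟩ t hs ht
  · rw [hB']
    exact hU _ _ (hBU _ _ _)
  · rw [hB', hB', ← mul_assoc k x s]
    congr 1
    simpa using hBN _ k (k * x) 1 s (by simp) hs
  · have hz : z x y ((d' : G) * r * k) = d' • P r k (k * x) (k * x * y) := by
      rw [mul_assoc, (hcomp x y).equiv]
      simp only [P, mul_inv_rev, mul_assoc, inv_mul_cancel_left]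
    rw [hz, mul_assoc _ (k : G) (x : G), ← Subgroup.coe_mul, hB', hB', hB', hBd, smul_add, smul_sub,
      mul_assoc k x y]

end Fermat.Agent.GD
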