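import Fermat.Agent.GD.Local
import Fermat.Agent.GD.Global.Basic.Shapiro

/-!
# Cocycles of ideles, place by place
-/

set_option autoImplicit false
set_option linter.style.haveILetI false

noncomputable section

namespace Fermat.Agent.GD

open Fermat.Agent.Galois (GQ)
open scoped Pointwise

local notation "ℚb" => AlgebraicClosure ℚ

variable {T : Finset Nat.Primes}

/-- The units of a chosen place, written additively. -/
def unitA (q : Nat.Primes) : AddSubgroup (Additive ℚbˣ) := Subgroup.toAddSubgroup (placeAt q).unitGroup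

theorem smul_mem_unitGroup {q : Nat.Primes} (d : decomp (some q)) {x : ℚbˣ}
    (hx : x ∈ (placeAt q).unitGroup) : d • x ∈ (placeAt q).unitGroup := by
  have hd : ∀ y : ℚb, y ∈ placeAt q → (d : GQ) • y ∈ placeAt q := fun y hy => by
    have := ValuationSubring.smul_mem_pointwise_smul (d : GQ) y (placeAt q) hy
    rwa [show (d : GQ) • placeAt q = placeAt q from d.2] at this
  rw [ValuationSubring.mem_unitGroup_iff] at hx ⊢
  have h1 : (x : ℚb) ∈ placeAt q := (ValuationSubring.valuation_le_one_iff _ _).mp hx.le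
  have h2 : ((x⁻¹ : ℚbˣ) : ℚb) ∈ placeAt q := (ValuationSubring.valuation_le_one_iff _ _).mp (by
    rw [Units.val_inv_eq_inv_val, map_inv₀, hx, inv_one])
  refine le_antisymm ((ValuationSubring.valuation_le_one_iff _ _).mpr (hd _ h1)) ?_
  have h3 := (ValuationSubring.valuation_le_one_iff (placeAt q) _).mpr (hd _ h2)
  rw [Units.val_inv_eq_inv_val, smul_inv''] at h3
  rw [map_inv₀] at h3
  exact (inv_le_one₀ (lt_of_le_of_ne zero_le' (Ne.symm ((map_ne_zero _).mpr (d • x : ℚbˣ).ne_zero)))).mp h3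

theorem smul_mem_unitA {q : Nat.Primes} (d : decomp (some q)) {x : Additive ℚbˣ} (hx : x ∈ unitA q) :
    d • x ∈ unitA q := smul_mem_unitGroup d (x := x.toMul) hx

theorem isComp_idele {N : Subgroup GQ} (f : idele T) (hf : ∀ v g, ∀ s ∈ N, f.1 v (g * s) = f.1 v g)
    (v : Place) : IsComp (decomp v) N (fun g => Additive.ofMul (f.1 v g)) :=
  ⟨fun d g => congrArg Additive.ofMul (f.2.1 v d d.2 g),
    fun g s hs => congrArg Additive.ofMul (hf v g s hs)⟩

/-- An idele from its components. -/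
def ideleOfComp {N : Subgroup GQ} (hN : (LT T).IsLevel N) (B : Place → GQ → Additive ℚbˣ)
    (hB : ∀ v, IsComp (decomp v) N (B v))
    (hfin : {q : Nat.Primes | ∃ g, B (some q) g ∉ unitA q}.Finite) : idele T :=
  ⟨fun v g => (B v g).toMul, fun v d hd g => congrArg Additive.toMul ((hB v).equiv ⟨d, hd⟩ g),
    ⟨N, hN, fun v g s hs => congrArg Additive.toMul ((hB v).inv g s hs)⟩, hfin⟩

theorem ideleOfComp_apply {N : Subgroup GQ} (hN : (LT T).IsLevel N) (B : Place → GQ → Additive ℚbˣ)
    (hB : ∀ v, IsComp (decomp v) N (B v))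
    (hfin : {q : Nat.Primes | ∃ g, B (some q) g ∉ unitA q}.Finite) (v : Place) (g : GQ) :
    (ideleOfComp hN B hB hfin).1 v g = (B v g).toMul := rfl

theorem isLevel_LD_of_LT {N : Subgroup GQ} (hN : (LT T).IsLevel N) (v : Place) :
    (LD v).IsLevel (N.subgroupOf (decomp v)) := by
  obtain ⟨F, hF, e, hn⟩ := hN
  exact ⟨N, ⟨F, hF.1, e, hn⟩, rfl⟩

theorem normal_of_level {N : Subgroup GQ} (hN : (LT T).IsLevel N) : N.Normal :=
  (LT T).normal N hN

theorem subgroupOf_le_locSub {H N : Subgroup GQ} [N.Normal] (hle : N ≤ H) (v : Place) (r : GQ) :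
    (N.subgroupOf (decomp v) : Subgroup (decomp v)) ≤ locSub (decomp v) H r := fun s hs =>
  hle (Subgroup.Normal.conj_mem ‹N.Normal› _ (Subgroup.mem_subgroupOf.mp hs) r⁻¹)

theorem cj_mem_level {H N : Subgroup GQ} [N.Normal] {v : Place} {r : GQ}
    (s : locSub (decomp v) H r) (hs : ((s : decomp v) : GQ) ∈ N) : ((cj s : H) : GQ) ∈ N :=
  Subgroup.Normal.conj_mem ‹N.Normal› _ hs r⁻¹

theorem mem_of_cj_mem {H N : Subgroup GQ} [N.Normal] {v : Place} {r : GQ}
    (s : locSub (decomp v) H r) (hs : ((cj s : H) : GQ) ∈ N) : ((s : decomp v) : GQ) ∈ N := by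
  have := Subgroup.Normal.conj_mem ‹N.Normal› _ hs r
  rw [coe_cj] at this
  simpa [mul_assoc] using! this

theorem inertia_le_level {N : Subgroup GQ} (hN : (LT T).IsLevel N) {q : Nat.Primes} (hq : q ∉ T)
    (s : (LD (some q)).G) (hs : s.1 ∈ (placeAt q).inertiaSubgroupIn ℚ) :
    s ∈ N.subgroupOf (decomp (some q)) := by
  obtain ⟨F, hF, rfl, -⟩ := hN
  exact Subgroup.mem_subgroupOf.mpr (hF.2 q hq (placeAt q) (placeAt_liesOverPrime q) hs)

/-- One place in degree one. -/
theorem exists_comp1 {H N : Subgroup GQ} (hN : (LT T).IsLevel N) (hle : N ≤ H) (v : Place)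
    (f : H → GQ → Additive ℚbˣ) (hcomp : ∀ x, IsComp (decomp v) N (f x))
    (hcoc : ∀ (x y : H) g, f (x * y) g = f x g + f y (g * (x : GQ)))
    (hc : ∀ x s : H, (s : GQ) ∈ N → f (x * s) = f x) :
    ∃ B, IsComp (decomp v) N B ∧ (∀ (x : H) g, f x g = B (g * (x : GQ)) - B g) ∧
      ((∀ x g, f x g = 0) → ∀ g, B g = 0) ∧
      ∀ q, v = some q → q ∉ T → (∀ x g, f x g ∈ unitA q) → ∀ g, B g ∈ unitA q := by
  haveI := normal_of_level hN
  by_cases h0 : ∀ x g, f x g = 0
  · exact ⟨fun _ => 0, ⟨fun d _ => (smul_zero d).symm, fun _ _ _ => rfl⟩,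
      fun x g => by rw [h0, sub_zero], fun _ _ => rfl, fun q _ _ _ _ => zero_mem _⟩
  have hloc : ∀ r, ∀ d e : locSub (decomp v) H r,
      f (cj (d * e)) r = f (cj d) r + (d : decomp v) • f (cj e) r := fun r d e => by
    rw [cj_mul, hcoc, mul_cj, (hcomp _).equiv]
  have hlocN : ∀ r, ∀ d s : locSub (decomp v) H r, ((s : decomp v) : GQ) ∈ N →
      f (cj (d * s)) r = f (cj d) r := fun r d s hs => by
    rw [cj_mul, hc _ _ (cj_mem_level s hs)]
  by_cases hu : ∃ q, v = some q ∧ q ∉ T ∧ ∀ x g, f x g ∈ unitA q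
  · obtain ⟨q, rfl, hqT, hfu⟩ := hu
    obtain ⟨B, hB, hBU, hBe⟩ := shapiro_one (D := decomp (some q)) hle (unitA q)
      (fun d a ha => smul_mem_unitA d ha) f hcomp hcoc hc hfu fun r => by
        obtain ⟨u, hu, -, hfu'⟩ := units_h1 q (locSub (decomp (some q)) H r)
          (N.subgroupOf (decomp (some q))) (isLevel_LD_of_LT hN _) (inertia_le_level hN hqT)
          (subgroupOf_le_locSub hle _ r) (fun d => (f (cj d) r).toMul)
          (fun d e => congrArg Additive.toMul (hloc r d e))
          (fun d s hs => congrArg Additive.toMul (hlocN r d s (Subgroup.mem_subgroupOf.mp hs)))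
          (fun d => hfu _ _)
        exact ⟨Additive.ofMul u, hu, fun d => congrArg Additive.ofMul (hfu' d)⟩
    exact ⟨B, hB, hBe, fun h => absurd h h0, fun q' hq' _ _ => Option.some_inj.mp hq' ▸ hBU⟩
  · obtain ⟨B, hB, -, hBe⟩ := shapiro_one (D := decomp v) hle ⊤ (fun _ _ _ => trivial) f hcomp hcoc hc
      (fun _ _ => trivial) fun r => by
        obtain ⟨u, -, hfu⟩ := exists_smul_div_eq v (locSub (decomp v) H r)
          (N.subgroupOf (decomp v)) (isLevel_LD_of_LT hN _)
          (subgroupOf_le_locSub hle _ r) (fun d => (f (cj d) r).toMul)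
          (fun d e => congrArg Additive.toMul (hloc r d e))
          (fun d s hs => congrArg Additive.toMul (hlocN r d s (Subgroup.mem_subgroupOf.mp hs)))
        exact ⟨Additive.ofMul u, trivial, fun d => congrArg Additive.ofMul (hfu d)⟩
    exact ⟨B, hB, hBe, fun h => absurd h h0, fun q hv hq h => absurd ⟨q, hv, hq, h⟩ hu⟩

/-- A cocycle constant modulo a level whose differential is a coboundary has values fixed by it. -/
theorem fixed_of_const {D : Type} [Group D] {A : Type} [AddCommGroup A] [DistribMulAction D A]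
    {K NL : Subgroup D} [NL.Normal] (c : K → K → A)
    (hcoc : ∀ g h j : K, (g : D) • c h j + c g (h * j) = c (g * h) j + c g h)
    (hc : ∀ g h s t : K, (s : D) ∈ NL → (t : D) ∈ NL → c (g * s) (h * t) = c g h) (b : K → A)
    (hb : ∀ g h : K, c g h = (g : D) • b h - b (g * h) + b g)
    (hbN : ∀ g s : K, (s : D) ∈ NL → b (g * s) = b g) (g s : K) (hs : (s : D) ∈ NL) :
    (s : D) • b g = b g := by
  have h1 : c 1 g = c 1 1 := by
    have := hcoc 1 1 g
    rw [Subgroup.coe_one, one_smul, one_mul, one_mul] at this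
    exact add_left_cancel this
  have h2 : c s g = c 1 g := by
    have := hc 1 g s 1 hs (by rw [Subgroup.coe_one]; exact NL.one_mem)
    rwa [one_mul, mul_one] at this
  have h3 : b (s * g) = b g := by
    rw [show s * g = g * (g⁻¹ * s * g) by group]
    exact hbN _ _ (by simpa using! (inferInstance : NL.Normal).conj_mem _ hs (g : D)⁻¹)
  have h4 : b s = b 1 := by simpa using hbN 1 s hs
  have h5 : c 1 1 = b 1 := by rw [hb, Subgroup.coe_one, one_smul, one_mul, sub_self, zero_add]
  have h := hb s g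
  rw [h2, h1, h5, h3, h4] at h
  rw [eq_comm, ← sub_eq_zero] at h
  rw [← sub_eq_zero]
  convert h using 1
  abel

/-- Inflation: a coboundary at some level is one at the level of the cocycle. -/
theorem exists_inflate (v : Place) (K NL : Subgroup (LD v).G) (hNL : (LD v).IsLevel NL)
    (hle : NL ≤ K) (c : K → K → Additive ℚbˣ)
    (hcoc : ∀ g h j : K, (g : (LD v).G) • c h j + c g (h * j) = c (g * h) j + c g h)
    (hc : ∀ g h s t : K, (s : (LD v).G) ∈ NL → (t : (LD v).G) ∈ NL → c (g * s) (h * t) = c g h)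
    (M : Subgroup (LD v).G) (hM : (LD v).IsLevel M) (b : K → Additive ℚbˣ)
    (hbM : ∀ g s : K, (s : (LD v).G) ∈ M → b (g * s) = b g)
    (hb : ∀ g h : K, c g h = (g : (LD v).G) • b h - b (g * h) + b g) :
    ∃ b' : K → Additive ℚbˣ, (∀ g s : K, (s : (LD v).G) ∈ NL → b' (g * s) = b' g) ∧
      ∀ g h : K, c g h = (g : (LD v).G) • b' h - b' (g * h) + b' g := by
  set c₀ := c 1 1
  have hl : ∀ j : K, c 1 j = c₀ := fun j => by
    have := hcoc 1 1 j
    rw [Subgroup.coe_one, one_smul, one_mul, one_mul] at this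
    exact add_left_cancel this
  have hr : ∀ g : K, c g 1 = (g : (LD v).G) • c₀ := fun g => by
    have := hcoc g 1 1
    rw [mul_one, mul_one] at this
    exact (add_right_cancel this).symm
  have hss : ∀ g s : K, (s : (LD v).G) ∈ NL → c g s = (g : (LD v).G) • c₀ := fun g s hs => by
    have := hc g 1 1 s (by rw [Subgroup.coe_one]; exact NL.one_mem) hs
    rw [mul_one, one_mul] at this
    rw [this, hr]
  have hsl : ∀ g : K, (g : (LD v).G) ∈ NL → (g : (LD v).G) • c₀ = c₀ := fun g hg => by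
    have := hc 1 1 g 1 hg (by rw [Subgroup.coe_one]; exact NL.one_mem)
    rw [mul_one, one_mul] at this
    rw [← hr, this]
  let i : NL →* K := Subgroup.inclusion hle
  obtain ⟨u, -, hu⟩ := exists_smul_div_eq v NL (M ⊓ NL) ((LD v).inf _ _ hM hNL) inf_le_right
    (fun s => (b (i s) - c₀).toMul) (fun s t => congrArg Additive.toMul (by
      show b (i (s * t)) - c₀ = (b (i s) - c₀) + (s : (LD v).G) • (b (i t) - c₀)
      have := hb (i s) (i t)
      rw [hss (i s) (i t) t.2, show ((i s : K) : (LD v).G) = s from rfl] at this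
      rw [map_mul, smul_sub, this]; abel))
    (fun s t ht => congrArg Additive.toMul (by
      show b (i (s * t)) - c₀ = b (i s) - c₀
      rw [map_mul, hbM _ _ (show ((i t : K) : (LD v).G) ∈ M from ht.1)]))
  let m : Additive ℚbˣ := Additive.ofMul u
  have hm : ∀ s : K, (s : (LD v).G) ∈ NL → b s - ((s : (LD v).G) • m - m) = c₀ := fun s hs => by
    have h1 : b s - c₀ = (s : (LD v).G) • m - m := congrArg Additive.ofMul (hu ⟨s, hs⟩)
    rw [← h1, sub_sub_cancel]
  refine ⟨fun g => b g - ((g : (LD v).G) • m - m), fun g s hs => ?_, fun g h => ?_⟩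
  · have h1 := hb g s
    rw [hss g s hs] at h1
    have h2 := congrArg (fun y => (g : (LD v).G) • y) (hm s hs)
    simp only [smul_sub, ← mul_smul] at h2
    show b (g * s) - ((((g : (LD v).G) * (s : (LD v).G))) • m - m) = b g - _
    rw [show b (g * s) = (g : (LD v).G) • b s + b g - (g : (LD v).G) • c₀ by rw [h1]; abel, ← h2]
    abel
  · rw [hb g h]
    show _ = (g : (LD v).G) • (b h - ((h : (LD v).G) • m - m)) -
      (b (g * h) - (((g : (LD v).G) * (h : (LD v).G)) • m - m)) + (b g - ((g : (LD v).G) • m - m))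
    rw [mul_smul]
    simp only [smul_sub]
    abel

/-- One place in degree two. -/
theorem exists_comp2 {H N : Subgroup GQ} (hN : (LT T).IsLevel N) (hle : N ≤ H) (v : Place)
    (z : H → H → GQ → Additive ℚbˣ) (hcomp : ∀ x y, IsComp (decomp v) N (z x y))
    (hcoc : ∀ (x y w : H) g, z y w (g * (x : GQ)) + z x (y * w) g = z (x * y) w g + z x y g)
    (hc : ∀ x y s t : H, (s : GQ) ∈ N → (t : GQ) ∈ N → z (x * s) (y * t) = z x y)
    (hloc : ∀ r, ∃ M, (LD v).IsLevel M ∧ ∃ b : locSub (decomp v) H r → Additive ℚbˣ,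
      (∀ d s : locSub (decomp v) H r, (s : decomp v) ∈ M → b (d * s) = b d) ∧
      ∀ d e : locSub (decomp v) H r, z (cj d) (cj e) r = (d : decomp v) • b e - b (d * e) + b d) :
    ∃ B : H → GQ → Additive ℚbˣ, (∀ x, IsComp (decomp v) N (B x)) ∧
      (∀ x s : H, (s : GQ) ∈ N → B (x * s) = B x) ∧
      (∀ (x y : H) g, z x y g = B y (g * (x : GQ)) - B (x * y) g + B x g) ∧
      ∀ q, v = some q → q ∉ T → (∀ x y g, z x y g ∈ unitA q) → ∀ x g, B x g ∈ unitA q := by
  haveI := normal_of_level hN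
  haveI : (N.subgroupOf (decomp v)).Normal := inferInstance
  have hlc : ∀ r, ∀ g h j : locSub (decomp v) H r, (g : decomp v) • z (cj h) (cj j) r +
      z (cj g) (cj (h * j)) r = z (cj (g * h)) (cj j) r + z (cj g) (cj h) r := fun r g h j => by
    rw [cj_mul, cj_mul, ← (hcomp _ _).equiv, ← mul_cj, hcoc]
  have hlN : ∀ r, ∀ g h s t : locSub (decomp v) H r, (s : decomp v) ∈ N.subgroupOf (decomp v) →
      (t : decomp v) ∈ N.subgroupOf (decomp v) →
      z (cj (g * s)) (cj (h * t)) r = z (cj g) (cj h) r := fun r g h s t hs ht => by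
    rw [cj_mul, cj_mul, hc _ _ _ _ (cj_mem_level s (Subgroup.mem_subgroupOf.mp hs))
      (cj_mem_level t (Subgroup.mem_subgroupOf.mp ht))]
  by_cases hu : ∃ q, v = some q ∧ q ∉ T ∧ ∀ x y g, z x y g ∈ unitA q
  · obtain ⟨q, rfl, hqT, hzu⟩ := hu
    obtain ⟨B, hB, hBU, hBN, hBe⟩ := shapiro_two (D := decomp (some q)) hle (unitA q)
      (fun d a ha => smul_mem_unitA d ha) z hcomp hcoc hc hzu fun r => by
        have hfix : ∀ g : locSub (decomp (some q)) H r × locSub (decomp (some q)) H r,
            ∀ s ∈ N.subgroupOf (decomp (some q)), s • (z (cj g.1) (cj g.2) r).toMul =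
              (z (cj g.1) (cj g.2) r).toMul := fun g s hs => by
          refine congrArg Additive.toMul (?_ : s • z (cj g.1) (cj g.2) r = z (cj g.1) (cj g.2) r)
          rw [← (hcomp _ _).equiv, show (s : GQ) * r = r * (r⁻¹ * (s : GQ) * r⁻¹⁻¹) by group,
            (hcomp _ _).inv _ _ (Subgroup.Normal.conj_mem ‹N.Normal› _
              (Subgroup.mem_subgroupOf.mp hs) r⁻¹)]
        obtain ⟨b, hbu, hbN, hb⟩ := units_h2 q (locSub (decomp (some q)) H r)
          (N.subgroupOf (decomp (some q))) (isLevel_LD_of_LT hN _) (inertia_le_level hN hqT)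
          (subgroupOf_le_locSub hle _ r) (fun y => (z (cj y.1) (cj y.2) r).toMul)
          (fun g h j => congrArg Additive.toMul (hlc r g h j))
          (fun g h s t hs ht => congrArg Additive.toMul (hlN r g h s t hs ht))
          (fun y => hzu _ _ _) hfix
        have hbA : ∀ d e, z (cj d) (cj e) r =
            (d : decomp (some q)) • Additive.ofMul (b e) - Additive.ofMul (b (d * e)) +
              Additive.ofMul (b d) := fun d e => congrArg Additive.ofMul (hb d e)
        have hbN' : ∀ d s : locSub (decomp (some q)) H r,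
            (s : decomp (some q)) ∈ N.subgroupOf (decomp (some q)) →
              Additive.ofMul (b (d * s)) = Additive.ofMul (b d) :=
          fun d s hs => congrArg Additive.ofMul (hbN d s hs)
        exact ⟨fun d => Additive.ofMul (b d), hbu,
          fun d s hs => hbN' d s (Subgroup.mem_subgroupOf.mpr (mem_of_cj_mem s hs)),
          fun d s hs => fixed_of_const (fun d e => z (cj d) (cj e) r) (hlc r) (hlN r) _ hbA hbN' d s
            (Subgroup.mem_subgroupOf.mpr (mem_of_cj_mem s hs)), hbA⟩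
    exact ⟨B, hB, hBN, hBe, fun q' hq' _ _ => Option.some_inj.mp hq' ▸ hBU⟩
  · obtain ⟨B, hB, -, hBN, hBe⟩ := shapiro_two (D := decomp v) hle ⊤ (fun _ _ _ => trivial) z
      hcomp hcoc hc (fun _ _ _ => trivial) fun r => by
        obtain ⟨M, hM, b, hbM, hb⟩ := hloc r
        obtain ⟨b', hbN, hb'⟩ := exists_inflate v (locSub (decomp v) H r) (N.subgroupOf (decomp v))
          (isLevel_LD_of_LT hN _) (subgroupOf_le_locSub hle _ r) (fun d e => z (cj d) (cj e) r)
          (hlc r) (hlN r) M hM b hbM hb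
        exact ⟨b', fun _ => trivial,
          fun d s hs => hbN d s (Subgroup.mem_subgroupOf.mpr (mem_of_cj_mem s hs)),
          fun d s hs => fixed_of_const (fun d e => z (cj d) (cj e) r) (hlc r) (hlN r) _ hb' hbN d s
            (Subgroup.mem_subgroupOf.mpr (mem_of_cj_mem s hs)), hb'⟩
    exact ⟨B, hB, hBN, hBe, fun q hv hq h => absurd ⟨q, hv, hq, h⟩ hu⟩

end Fermat.Agent.GD
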